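import Fermat.Agent.LanglandsTunnell.Lift.Eigen.Hecke
import Fermat.Agent.LanglandsTunnell.Lift.Defs
import Fermat.Agent.WeightOneWiring.Descend

/-!
# A normalised eigenform from the lift

`eigenSpec`: a nonzero cusp form with the Eichler relations yields a common eigenvector of the
Hecke operators with the same split eigenvalues, of level prime to `3` when required, hence the
weight one form asked for by `LiftSpec`.
-/

set_option autoImplicit false

noncomputable section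

open UpperHalfPlane CongruenceSubgroup Matrix.SpecialLinearGroup
open scoped MatrixGroups ModularForm Manifold

namespace FLTAgent.LanglandsTunnell.Lift

open FLTAgent.MFIntegral FLTAgent.LanglandsTunnell FLTAgent.WeightOneWiring
open FLTAgent.DeligneSerre (cfSpace T_mem_Gamma1)

/-- Commuting operators have a common eigenvector in a finite dimensional invariant subspace. -/
theorem exists_common_eigen {ι V : Type*} [AddCommGroup V] [Module ℂ V] (W₀ : Submodule ℂ V)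
    [FiniteDimensional ℂ W₀] (T : ι → V →ₗ[ℂ] V) (hinv : ∀ i, ∀ v ∈ W₀, T i v ∈ W₀)
    (hcomm : ∀ i j, ∀ v ∈ W₀, T i (T j v) = T j (T i v)) (h0 : W₀ ≠ ⊥) :
    ∃ v ∈ W₀, v ≠ 0 ∧ ∀ i, ∃ c : ℂ, T i v = c • v := by
  classical
  have hex : ∃ d, ∃ W ≤ W₀, W ≠ ⊥ ∧ (∀ i, ∀ v ∈ W, T i v ∈ W) ∧ Module.finrank ℂ W = d :=
    ⟨_, W₀, le_rfl, h0, hinv, rfl⟩
  obtain ⟨W, hW, hW0, hWinv, hWd⟩ := Nat.find_spec hex
  have : FiniteDimensional ℂ W := Submodule.finiteDimensional_of_le hW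
  have : Nontrivial W := Submodule.nontrivial_iff_ne_bot.mpr hW0
  obtain ⟨v, hv, hv0⟩ := Submodule.exists_mem_ne_zero_of_ne_bot hW0
  refine ⟨v, hW hv, hv0, fun i => ?_⟩
  obtain ⟨c, hc⟩ := Module.End.exists_eigenvalue ((T i).restrict (hWinv i))
  obtain ⟨u, hu⟩ := hc.exists_hasEigenvector
  refine ⟨c, ?_⟩
  let W' : Submodule ℂ V := W ⊓ LinearMap.ker (T i - c • LinearMap.id)
  have hmem : ∀ x, x ∈ W' ↔ x ∈ W ∧ T i x = c • x := fun x => by
    simp only [W', Submodule.mem_inf, LinearMap.mem_ker, LinearMap.sub_apply, LinearMap.smul_apply,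
      LinearMap.id_apply, sub_eq_zero]
  have hu' : (u : V) ∈ W' := (hmem _).mpr
    ⟨u.2, congrArg Subtype.val hu.apply_eq_smul⟩
  have hW'0 : W' ≠ ⊥ := fun h => hu.2 (Subtype.ext ((Submodule.mem_bot ℂ).mp (h ▸ hu')))
  have hW'inv : ∀ j, ∀ x ∈ W', T j x ∈ W' := fun j x hx => by
    obtain ⟨hxW, hxc⟩ := (hmem x).mp hx
    exact (hmem _).mpr ⟨hWinv j x hxW, by rw [hcomm i j x (hW hxW), hxc, map_smul]⟩
  have hle : Module.finrank ℂ W ≤ Module.finrank ℂ W' := by
    rw [hWd]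
    exact Nat.find_min' hex ⟨W', inf_le_left.trans hW, hW'0, hW'inv, rfl⟩
  have heq : W' = W := Submodule.eq_of_le_of_finrank_le inf_le_left hle
  exact ((hmem v).mp (heq ▸ hv)).2

/-- A weight one form of nebentypus `χ₋₃` and level `3 N²`, `3 ∤ N`, invariant under `τ ↦ τ + 1/3`,
is zero. -/
theorem eq_zero_of_third {N : ℕ} (h3 : ¬ 3 ∣ N) {g : ℍ → ℂ}
    (hchar : ∀ γ ∈ Gamma0 (3 * N ^ 2), g ∣[(1 : ℤ)] γ = (chiInt (γ 1 1) : ℂ) • g)
    (hthird : ∀ τ : ℍ, g ((1 / 3 : ℝ) +ᵥ τ) = g τ) : g = 0 := by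
  have hsq : N ^ 2 % 3 = 1 := by
    rw [Nat.pow_mod]
    have : N % 3 = 1 ∨ N % 3 = 2 := by omega
    rcases this with h | h <;> rw [h]
  obtain ⟨k, hk⟩ : ∃ k : ℕ, 3 * k = 2 + N ^ 2 := ⟨(2 + N ^ 2) / 3, by omega⟩
  have hkC : (3 : ℂ) * k = 2 + (N : ℂ) ^ 2 := by exact_mod_cast hk
  have hkZ : (3 : ℤ) * k = 2 + (N : ℤ) ^ 2 := by exact_mod_cast hk
  let M : SL(2, ℤ) := ⟨!![1 + (N : ℤ) ^ 2, k; 3 * (N : ℤ) ^ 2, 1 + (N : ℤ) ^ 2], by
    rw [Matrix.det_fin_two_of]; linear_combination -(N : ℤ) ^ 2 * hkZ⟩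
  let V : SL(2, ℤ) := ⟨!![1, 0; 3 * (N : ℤ) ^ 2, 1], by rw [Matrix.det_fin_two_of]; ring⟩
  have hM : M ∈ Gamma0 (3 * N ^ 2) := by
    rw [Gamma0_mem]
    show ((3 * (N : ℤ) ^ 2 : ℤ) : ZMod (3 * N ^ 2)) = 0
    rw [ZMod.intCast_zmod_eq_zero_iff_dvd]; push_cast; rfl
  have hV : V ∈ Gamma0 (3 * N ^ 2) := by
    rw [Gamma0_mem]
    show ((3 * (N : ℤ) ^ 2 : ℤ) : ZMod (3 * N ^ 2)) = 0
    rw [ZMod.intCast_zmod_eq_zero_iff_dvd]; push_cast; rfl
  have hχM : chiInt (M 1 1) = -1 := by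
    show chiInt (1 + (N : ℤ) ^ 2) = -1
    have h2 : (1 + (N : ℤ) ^ 2) % 3 = 2 := by
      have : ((N : ℤ) ^ 2) % 3 = 1 := by exact_mod_cast hsq
      omega
    rw [chiInt_of_emod (Or.inr h2), if_neg (by omega)]
  have hχV : chiInt (V 1 1) = 1 := by
    show chiInt 1 = 1
    rw [chiInt_of_emod (Or.inl (by norm_num)), if_pos (by norm_num)]
  funext τ
  set σ : ℍ := (1 / 3 : ℝ) +ᵥ τ with hσ
  have hσc : (σ : ℂ) = (1 / 3 : ℂ) + (τ : ℂ) := by rw [hσ, coe_vadd]; norm_num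
  have eM := congrFun (hchar M hM) τ
  have eV := congrFun (hchar V hV) σ
  rw [ModularForm.SL_slash_apply, hχM] at eM
  rw [ModularForm.SL_slash_apply, hχV] at eV
  simp only [Int.cast_neg, Int.cast_one, Pi.smul_apply, smul_eq_mul, neg_mul, one_mul] at eM eV
  have hd : denom (Matrix.SpecialLinearGroup.toGL
      (Matrix.SpecialLinearGroup.map (Int.castRingHom ℝ) V)) σ =
        denom (Matrix.SpecialLinearGroup.toGL
      (Matrix.SpecialLinearGroup.map (Int.castRingHom ℝ) M)) τ := by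
    simp [denom, V, M, hσc]
    ring
  have hpt : M • τ = (1 / 3 : ℝ) +ᵥ (V • σ) := by
    refine UpperHalfPlane.ext ?_
    rw [coe_vadd, coe_specialLinearGroup_apply, coe_specialLinearGroup_apply]
    have hne : (3 * (N : ℂ) ^ 2 * (τ : ℂ) + (1 + (N : ℂ) ^ 2)) ≠ 0 := by
      intro h0
      have him := congrArg Complex.im h0
      have hτ := τ.im_pos
      simp [← Complex.ofReal_natCast, ← Complex.ofReal_pow] at him
      rcases him with h | h
      · exact h3 (h ▸ dvd_zero 3)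
      · exact absurd h τ.im_ne_zero
    simp [V, M, hσc]
    have hden : (3 * (N : ℂ) ^ 2 * (3⁻¹ + (τ : ℂ)) + 1) =
        3 * (N : ℂ) ^ 2 * (τ : ℂ) + (1 + (N : ℂ) ^ 2) := by ring
    rw [hden]
    generalize hD : (3 * (N : ℂ) ^ 2 * (τ : ℂ) + (1 + (N : ℂ) ^ 2)) = D at hne ⊢
    field_simp
    subst hD
    linear_combination hkC
  rw [hpt, hthird, ← hd, eV, hσ, hthird] at eM
  simpa using self_eq_neg.mp (eM.trans (by simp))

/-- The quadratic character modulo `3 N²`. -/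
def chiL (N : ℕ) : DirichletCharacter ℂ (3 * N ^ 2) :=
  DirichletCharacter.changeLevel (dvd_mul_right 3 (N ^ 2)) chiThree

theorem chiL_gamma0 {N : ℕ} {γ : SL(2, ℤ)} (hγ : γ ∈ Gamma0 (3 * N ^ 2)) :
    chiL N ((γ 1 1 : ℤ) : ZMod (3 * N ^ 2)) = chiInt (γ 1 1) :=
  changeLevel_chiThree _ (isUnit_iff_exists_inv.mpr ⟨_, (mul_comm _ _).trans (gamma0_entries hγ).2⟩)

theorem chiL_prime_of_mod {N p : ℕ} (hp : p.Prime) (hpL : ¬ p ∣ 3 * N ^ 2) (h : p % 3 = 1) :
    chiL N (p : ZMod (3 * N ^ 2)) = 1 := by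
  have hu : IsUnit ((p : ℕ) : ZMod (3 * N ^ 2)) := (ZMod.isUnit_prime_iff_not_dvd hp).mpr hpL
  rw [← Int.cast_natCast (R := ZMod (3 * N ^ 2)), chiL,
    changeLevel_chiThree _ (by rwa [Int.cast_natCast]), chiInt_of_emod (Or.inl (by omega)),
    if_pos (by omega), Int.cast_one]

theorem mod_three_of_normSq {z : ℂ} (hz : z ∈ Eis) {p : ℕ} (hp : p.Prime) (h3 : p ≠ 3)
    (h : Complex.normSq z = p) : p % 3 = 1 := by
  obtain ⟨x, y, rfl⟩ := hz
  have hne : p % 3 ≠ 0 := fun h0 =>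
    h3 ((Nat.prime_dvd_prime_iff_eq Nat.prime_three hp).mp (Nat.dvd_of_mod_eq_zero h0)).symm
  have h' : (x * x - x * y + y * y : ℤ) = (p : ℤ) := by
    have : ((x * x - x * y + y * y : ℤ) : ℝ) = ((p : ℤ) : ℝ) := by
      rw [Int.cast_natCast, ← h, Complex.normSq_apply]
      simp [eis, omega]
      have := Real.mul_self_sqrt (show (0 : ℝ) ≤ 3 by norm_num)
      linear_combination -((y : ℝ) * y / 4) * this
    exact_mod_cast this
  have h4 : ∀ a b : ZMod 3, a * a - a * b + b * b ≠ 2 := by decide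
  have h2 : p % 3 ≠ 2 := fun h2 => by
    refine h4 x y ?_
    have := congrArg (fun t : ℤ => (t : ZMod 3)) h'
    push_cast at this
    rw [this, ← ZMod.natCast_mod, h2]
    rfl
  omega

/-- **The eigenform.** -/
theorem eigenSpec : EigenSpec := by
  intro D N hN hsq hsplit3 A f hf hmatch
  have : NeZero (3 * N ^ 2) := ⟨mul_ne_zero three_ne_zero (pow_ne_zero _ hN)⟩
  have hgood : ∀ {p : ℕ}, p.Prime → ¬ p ∣ 3 * N → ¬ p ∣ 3 * N ^ 2 := fun hp h hd =>
    h ((hp.dvd_mul.mp hd).elim (fun h1 => h1.mul_right N) fun h2 =>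
      (hp.dvd_of_dvd_pow h2).mul_left 3)
  set χ := chiL N with hχ
  let K : Submodule ℂ (ℕ → ℂ) :=
    { carrier := {a | a ∈ charSpace χ ∧ (∀ n : ℕ, ¬ n.Coprime N → a n = 0) ∧
        ∀ p : ℕ, p.Prime → ¬ p ∣ 3 * N → ∀ π ∈ Eis, Complex.normSq π = p →
          seqT χ p a = A π • a}
      zero_mem' := ⟨zero_mem _, fun _ _ => rfl, fun _ _ _ _ _ _ => by rw [map_zero, smul_zero]⟩
      add_mem' := fun {a b} ha hb => ⟨add_mem ha.1 hb.1,
        fun n hn => by rw [Pi.add_apply, ha.2.1 n hn, hb.2.1 n hn, add_zero],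
        fun p hp hpN π hπ hn => by
          rw [map_add, ha.2.2 p hp hpN π hπ hn, hb.2.2 p hp hpN π hπ hn, smul_add]⟩
      smul_mem' := fun c a ha => ⟨Submodule.smul_mem _ c ha.1,
        fun n hn => by rw [Pi.smul_apply, ha.2.1 n hn, smul_zero],
        fun p hp hpN π hπ hn => by rw [map_smul, ha.2.2 p hp hpN π hπ hn, smul_comm]⟩ }
  have : FiniteDimensional ℂ K :=
    Submodule.finiteDimensional_of_le (show K ≤ charSpace χ from fun a ha => ha.1)
  have hPB := hf.isCF.1.mem_PB T_mem_Gamma1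
  have hfK : ModularFormClass.qCoeff f ∈ K := by
    refine ⟨⟨f, hf.isCF, fun γ hγ => ?_, fun n => rfl⟩, hf.support, fun p hp hpN π hπ hn => ?_⟩
    · rw [hχ, chiL_gamma0 hγ]; exact hf.char γ hγ
    · funext n
      rw [seqT_apply, hχ, chiL_prime_of_mod hp (hgood hp hpN)
        (mod_three_of_normSq hπ hp (fun h => hpN (h ▸ dvd_mul_right 3 N)) hn), one_mul]
      exact hf.split p hp hpN π hπ hn n
  have hK0 : K ≠ ⊥ := fun h => hf.ne_zero <| by
    have h0 : ModularFormClass.qCoeff f = 0 := (Submodule.mem_bot ℂ).mp (h ▸ hfK)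
    refine (qE_eq_zero_iff hPB).mp ?_
    ext n
    rw [map_zero]
    exact congrFun h0 n
  let ι := {q : ℕ // q.Prime ∧ ¬ q ∣ 3 * N ^ 2}
  obtain ⟨a, ⟨haS, hsupp, hsplit⟩, ha0, heig⟩ := exists_common_eigen K (fun q : ι => seqT χ q.1)
    (fun q a ha => ⟨seqT_mem χ q.2.1 q.2.2 ha.1, fun n hn => by
      have hqN : ¬ q.1 ∣ N := fun h => q.2.2 ((dvd_pow h two_ne_zero).mul_left 3)
      have h1 : ¬ (q.1 * n).Coprime N := fun h => hn h.coprime_mul_left
      have h2 : q.1 ∣ n → ¬ (n / q.1).Coprime N := fun hd h => hn (by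
        rw [← Nat.mul_div_cancel' hd]
        exact Nat.Coprime.mul_left (q.2.1.coprime_iff_not_dvd.mpr hqN) h)
      rw [seqT_apply, ha.2.1 _ h1]
      split_ifs with hd
      · rw [ha.2.1 _ (h2 hd), mul_zero, add_zero]
      · rw [mul_zero, add_zero],
      fun p hp hpN π hπ hn => by
        rw [seqT_comm χ hp q.2.1, ha.2.2 p hp hpN π hπ hn, map_smul]⟩)
    (fun i j v _ => seqT_comm χ i.2.1 j.2.1 v) hK0
  choose ev hev using heig
  obtain ⟨g, hg, hgc, hga⟩ := haS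
  have hgPB := hg.1.mem_PB T_mem_Gamma1
  have ha1 : a 1 ≠ 0 := by
    intro h1
    have hz : ∀ n, ¬ 3 ∣ n → a n = 0 := by
      intro n
      induction n using Nat.strong_induction_on with
      | _ n ih =>
        intro h3n
        by_cases hcop : n.Coprime N
        swap
        · exact hsupp n hcop
        rcases eq_or_ne n 1 with rfl | hn1
        · exact h1
        obtain ⟨p, hp, hpn⟩ := Nat.exists_prime_and_dvd hn1
        obtain ⟨m, rfl⟩ := hpn
        have hp3 : p ≠ 3 := fun h => h3n (h ▸ dvd_mul_right p m)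
        have hpN : ¬ p ∣ N := fun h => hp.ne_one
          (Nat.dvd_one.mp (hcop ▸ Nat.dvd_gcd (dvd_mul_right p m) h))
        have hpL : ¬ p ∣ 3 * N ^ 2 := fun h => (hp.dvd_mul.mp h).elim
          (fun h' => hp3 ((Nat.prime_dvd_prime_iff_eq hp Nat.prime_three).mp h'))
          fun h' => hpN (hp.dvd_of_dvd_pow h')
        have hm0 : m ≠ 0 := by
          rintro rfl
          exact h3n (by simp)
        have hmlt : m < p * m := (Nat.lt_mul_iff_one_lt_left (Nat.pos_of_ne_zero hm0)).mpr hp.one_lt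
        have h3m : ¬ 3 ∣ m := fun h => h3n (h.mul_left p)
        have e := congrFun (hev ⟨p, hp, hpL⟩) m
        rw [seqT_apply, Pi.smul_apply, ih m hmlt h3m, smul_zero] at e
        split_ifs at e with hd
        · rw [ih (m / p) ((Nat.div_le_self m p).trans_lt hmlt)
            (fun h => h3m (h.trans (Nat.div_dvd_of_dvd hd))), mul_zero, add_zero] at e
          exact e
        · simpa using e
    have hg0 : g = 0 := by
      by_cases h3N : 3 ∣ N
      · refine (qE_eq_zero_iff hgPB).mp ?_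
        ext n
        rw [hga, map_zero]
        by_cases h3n : 3 ∣ n
        · exact hsupp n fun h => by
            have := Nat.dvd_gcd h3n h3N
            rw [h.gcd_eq_one] at this
            omega
        · exact hz n h3n
      · refine eq_zero_of_third h3N (fun γ hγ => by rw [hgc γ hγ, hχ, chiL_gamma0 hγ]) fun τ => ?_
        obtain ⟨hper, hhol, hbdd⟩ := mem_PB.mp hgPB
        have s1 := ((1 / 3 : ℝ) +ᵥ τ).hasSum_qExpansion one_pos hper hhol hbdd
        have s2 := τ.hasSum_qExpansion one_pos hper hhol hbdd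
        refine s1.unique ?_
        convert s2 using 2 with m
        rw [show (qExpansion 1 g).coeff m = a m from hga m]
        by_cases h3m : 3 ∣ m
        swap
        · rw [hz m h3m, zero_smul, zero_smul]
        obtain ⟨j, rfl⟩ := h3m
        rw [coe_vadd]
        simp only [Function.Periodic.qParam, ← Complex.exp_nat_mul]
        congr 1
        refine Complex.exp_eq_exp_iff_exists_int.mpr ⟨j, ?_⟩
        push_cast
        ring
    refine ha0 (funext fun n => ?_)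
    rw [← hga, hg0, qE_zero, map_zero]
    rfl
  set b : ℕ → ℂ := (a 1)⁻¹ • a with hb
  have hb1 : b 1 = 1 := by rw [hb, Pi.smul_apply, smul_eq_mul, inv_mul_cancel₀ ha1]
  have hbev : ∀ (p : ℕ) (hp : p.Prime) (hpL : ¬ p ∣ 3 * N ^ 2),
      seqT χ p b = ev ⟨p, hp, hpL⟩ • b ∧ ev ⟨p, hp, hpL⟩ = b p := fun p hp hpL => by
    have e : seqT χ p b = ev ⟨p, hp, hpL⟩ • b := by
      rw [hb, map_smul, hev ⟨p, hp, hpL⟩, smul_comm]
    refine ⟨e, ?_⟩
    have e1 := congrFun e 1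
    rw [seqT_apply, mul_one, if_neg (fun h => hp.ne_one (Nat.dvd_one.mp h)), mul_zero, add_zero,
      Pi.smul_apply, hb1, smul_eq_mul, mul_one] at e1
    exact e1.symm
  have hG : IsCF 1 (Gamma1 (3 * N ^ 2)) ((a 1)⁻¹ • g) :=
    ⟨hg.1.smul _, fun γ => by rw [ModularForm.SL_smul_slash]; exact (hg.2 γ).smul _⟩
  have hcoeff : ∀ n, ModularFormClass.qCoeff hG.toCF n = b n := fun n => by
    rw [qCoeff_eq, IsCF.coe_toCF, qE_smul hgPB, map_smul, hga, hb, Pi.smul_apply]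
  refine ⟨3 * N ^ 2, inferInstance, χ, hG.toCF, by rw [hcoeff, hb1], fun p hp hpL n => ?_,
    fun q hq hq3 hbad hd => ?_, fun hS hd => ?_, fun p hp hpL V hV σ hfr hq8 => ?_⟩
  · rw [hcoeff, hcoeff, hcoeff, hcoeff]
    obtain ⟨e, hev'⟩ := hbev p hp hpL
    have := congrFun e n
    rwa [seqT_apply, Pi.smul_apply, smul_eq_mul, hev'] at this
  · have h1 : q ^ 3 ∣ N ^ 2 := (Nat.Coprime.pow_left 3
      ((Nat.coprime_primes hq Nat.prime_three).mpr hq3)).dvd_of_dvd_mul_left hd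
    refine (hsq q hq ?_).elim hq3 hbad
    have hqN : q ∣ N := hq.dvd_of_dvd_pow ((dvd_pow_self q three_ne_zero).trans h1)
    obtain ⟨m, rfl⟩ := hqN
    rw [sq]
    refine mul_dvd_mul_left q ?_
    rw [mul_pow, show q ^ 3 = q ^ 2 * q by ring] at h1
    exact hq.dvd_of_dvd_pow (Nat.dvd_of_mul_dvd_mul_left (pow_pos hq.pos 2) h1)
  · refine hsplit3 hS (Nat.prime_three.dvd_of_dvd_pow (n := 2) ?_)
    exact Nat.dvd_of_mul_dvd_mul_left three_pos hd
  · have hpN : ¬ p ∣ 3 * N := fun h => hpL ((hp.dvd_mul.mp h).elim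
      (fun h' => h'.mul_right _) fun h' => (dvd_pow h' two_ne_zero).mul_left 3)
    obtain ⟨π, hπ, hn, hval⟩ := hmatch p hp hpN V hV σ hfr hq8
    rw [hcoeff, ← hval]
    have e1 := congrFun (hsplit p hp hpN π hπ hn) 1
    rw [seqT_apply, mul_one, if_neg (fun h => hp.ne_one (Nat.dvd_one.mp h)), mul_zero, add_zero,
      Pi.smul_apply, smul_eq_mul] at e1
    rw [hb, Pi.smul_apply, e1, smul_eq_mul, mul_left_comm, inv_mul_cancel₀ ha1, mul_one]

end FLTAgent.LanglandsTunnell.Lift
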