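import Fermat.Agent.DeligneSerre.Systems
import Fermat.Agent.DeligneSerre.Diamond
import Fermat.Prelude.Thm_CuspFormClass_isZeroAt_heckeT
import Fermat.Prelude.Thm_CuspFormClass_isZeroAt_heckeU

/-!
# Hecke operators on weight one forms with a character

`chiT p` and its action `seqT p` on `q`-expansions; the finite dimensional space `charSpace` of
cusp forms with a character is stable under these commuting operators (`seqT_mem`, `seqT_comm`).
Used in `Eigen.Spec`.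
-/

set_option autoImplicit false

noncomputable section

open UpperHalfPlane CongruenceSubgroup Matrix.SpecialLinearGroup
open scoped MatrixGroups ModularForm Manifold

namespace FLTAgent.LanglandsTunnell.Lift

open FLTAgent.MFIntegral FLTAgent.Newforms
open FLTAgent.DeligneSerre (cfSpace T_mem_Gamma1)

variable {L : ℕ} {p : ℕ} {f : ℍ → ℂ} (χ : DirichletCharacter ℂ L)

/-- The operator `T_p` of nebentypus `χ`, in weight one. -/
def chiT (p : ℕ) (f : ℍ → ℂ) : ℍ → ℂ :=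
  ModularForm.heckeU 1 p f + χ (p : ZMod L) • (f ∣[(1 : ℤ)] ModularForm.heckeDiagMatrix p)

theorem gamma0_entries {γ : SL(2, ℤ)} (h : γ ∈ Gamma0 L) :
    ((γ 1 0 : ℤ) : ZMod L) = 0 ∧ ((γ 0 0 : ℤ) : ZMod L) * (γ 1 1 : ℤ) = 1 := by
  have h10 := Gamma0_mem.mp h
  have := congrArg (Int.cast : ℤ → ZMod L) ((Matrix.det_fin_two γ.1).symm.trans γ.2)
  push_cast at this
  rw [h10, mul_zero, sub_zero] at this
  exact ⟨h10, this⟩

/-- `T_p` preserves the nebentypus. -/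
theorem chiT_slash (hp : p.Prime) (hpL : ¬ p ∣ L)
    (hf : ∀ γ ∈ Gamma0 L, f ∣[(1 : ℤ)] γ = χ ((γ 1 1 : ℤ) : ZMod L) • f)
    {γ : SL(2, ℤ)} (hγ : γ ∈ Gamma0 L) :
    chiT χ p f ∣[(1 : ℤ)] γ = χ ((γ 1 1 : ℤ) : ZMod L) • chiT χ p f := by
  let c : Option (Fin p) → ℂ := fun x ↦ χ ((heckeMat p x 0 0 : ℤ) : ZMod L)
  let T : Option (Fin p) → ℍ → ℂ := fun x ↦ c x • (f ∣[(1 : ℤ)] intGL (heckeMat p x))
  have hsum : chiT χ p f = ∑ x, T x := by
    rw [Fintype.sum_option, chiT, add_comm]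
    simp only [T, c, intGL_heckeMat hp.ne_zero, Option.elim]
    simp only [heckeMat, Matrix.of_apply, Matrix.cons_val', Matrix.cons_val_zero,
      Matrix.empty_val', Matrix.cons_val_fin_one, Int.cast_natCast, Int.cast_one, map_one, one_smul]
    rw [Fin.sum_univ_eq_sum_range fun j ↦ f ∣[(1 : ℤ)] ModularForm.heckeMatrix p j,
      ModularForm.heckeU_def]
  obtain ⟨-, hγdet⟩ := gamma0_entries hγ
  choose π g hg hπ hcl using DeligneSerre.exists_heckeMat_mul_eq hp hpL hγ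
  have hinj := DeligneSerre.heckeMat_perm_injective hp hπ
  have hne : ∀ z, (heckeMat p z).det ≠ 0 := fun z ↦ by
    rw [det_heckeMat]; exact_mod_cast hp.ne_zero
  have hσ : ∀ x, UpperHalfPlane.σ (intGL (heckeMat p x)) = .refl ℝ ℂ := fun x ↦ by
    rw [intGL_heckeMat hp.ne_zero]
    cases x
    · exact ModularForm.σ_heckeDiagMatrix p
    · exact ModularForm.σ_heckeMatrix p _
  have hterm : ∀ x, T x ∣[(1 : ℤ)] γ = χ ((γ 1 1 : ℤ) : ZMod L) • T (π x) := by
    intro x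
    have e : (f ∣[(1 : ℤ)] intGL (heckeMat p x)) ∣[(1 : ℤ)] γ =
        (f ∣[(1 : ℤ)] g x) ∣[(1 : ℤ)] intGL (heckeMat p (π x)) := by
      rw [ModularForm.SL_slash, ← SlashAction.slash_mul, ModularForm.SL_slash,
          ← SlashAction.slash_mul]
      congr 1
      change intGL (heckeMat p x) * mapGL ℝ γ = mapGL ℝ (g x) * _
      rw [mapGL_eq_intGL, intGL_mul (hne x) (by rw [γ.2]; exact one_ne_zero), hπ,
        ← intGL_mul (by rw [(g x).2]; exact one_ne_zero) (hne _), ← mapGL_eq_intGL]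
    simp only [T]
    rw [ModularForm.SL_smul_slash, e, hf _ (hg x), ModularForm.smul_slash, hσ]
    simp only [ContinuousAlgEquiv.refl_apply, smul_smul, c, ← map_mul]
    congr 2
    obtain ⟨-, hgdet⟩ := gamma0_entries (hg x)
    linear_combination -((γ 1 1 : ℤ) * ((g x 1 1 : ℤ) : ZMod L)) * hcl x
      + (((γ 1 1 : ℤ) : ZMod L) * ((heckeMat p (π x) 0 0 : ℤ) : ZMod L)) * hgdet
      - (((heckeMat p x 0 0 : ℤ) : ZMod L) * ((g x 1 1 : ℤ) : ZMod L)) * hγdet
  rw [hsum, SlashAction.sum_slash, Finset.sum_congr rfl fun x _ ↦ hterm x, ← Finset.smul_sum]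
  exact congrArg _ (Equiv.sum_comp (Equiv.ofBijective π ⟨hinj,
      Finite.injective_iff_surjective.mp hinj⟩) T)

/-- Coefficient sequences of weight one cusp forms of nebentypus `χ`. -/
def charSpace : Submodule ℂ (ℕ → ℂ) where
  carrier := {a | ∃ g, IsCF 1 (Gamma1 L) g ∧
    (∀ γ ∈ Gamma0 L, g ∣[(1 : ℤ)] γ = χ ((γ 1 1 : ℤ) : ZMod L) • g) ∧
    ∀ n, PowerSeries.coeff n (qE g) = a n}
  zero_mem' := ⟨0, ⟨isMF_zero, fun γ ↦ by
    rw [SlashAction.zero_slash]; exact tendsto_const_nhds⟩, fun γ _ ↦ by simp,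
    fun n ↦ by rw [qE_zero]; simp⟩
  add_mem' := by
    rintro a b ⟨g, hg, hgc, hga⟩ ⟨g', hg', hgc', hgb⟩
    refine ⟨g + g', ⟨hg.1.add hg'.1, fun γ ↦ ?_⟩, fun γ hγ ↦ ?_, fun n ↦ ?_⟩
    · rw [SlashAction.add_slash]
      simpa [IsZeroAtImInfty] using (hg.2 γ).add (hg'.2 γ)
    · rw [SlashAction.add_slash, hgc γ hγ, hgc' γ hγ, smul_add]
    · rw [qE_add (hg.1.mem_PB T_mem_Gamma1) (hg'.1.mem_PB T_mem_Gamma1), map_add, hga, hgb,
        Pi.add_apply]
  smul_mem' := by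
    rintro c a ⟨g, hg, hgc, hga⟩
    refine ⟨c • g, ⟨hg.1.smul c, fun γ ↦ ?_⟩, fun γ hγ ↦ ?_, fun n ↦ ?_⟩
    · rw [ModularForm.SL_smul_slash]
      exact (hg.2 γ).smul c
    · rw [ModularForm.SL_smul_slash, hgc γ hγ, smul_comm]
    · rw [qE_smul (hg.1.mem_PB T_mem_Gamma1), map_smul, hga, Pi.smul_apply]

theorem charSpace_le : charSpace χ ≤ cfSpace L :=
  fun _ ⟨g, hg, _, hga⟩ ↦ ⟨g, hg, hga⟩

instance finiteDimensional_charSpace [NeZero L] : FiniteDimensional ℂ (charSpace χ) :=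
  Submodule.finiteDimensional_of_le (charSpace_le χ)

/-- The operator `T_p` on sequences. -/
def seqT (p : ℕ) : (ℕ → ℂ) →ₗ[ℂ] (ℕ → ℂ) where
  toFun b n := b (p * n) + χ (p : ZMod L) * (if p ∣ n then b (n / p) else 0)
  map_add' b c := funext fun n ↦ by
    simp only [Pi.add_apply]
    split_ifs <;> ring
  map_smul' c b := funext fun n ↦ by
    simp only [Pi.smul_apply, smul_eq_mul, RingHom.id_apply]
    split_ifs <;> ring

theorem seqT_apply (p : ℕ) (b : ℕ → ℂ) (n : ℕ) :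
    seqT χ p b n = b (p * n) + χ (p : ZMod L) * (if p ∣ n then b (n / p) else 0) := rfl

theorem seqT_comm {q : ℕ} (hp : p.Prime) (hq : q.Prime) (b : ℕ → ℂ) :
    seqT χ p (seqT χ q b) = seqT χ q (seqT χ p b) := by
  rcases eq_or_ne p q with rfl | hne
  · rfl
  funext n
  have key : ∀ {p q : ℕ}, p.Prime → q.Prime → p ≠ q →
      seqT χ p (seqT χ q b) n = b (q * (p * n)) +
        χ (q : ZMod L) * (if q ∣ n then b (p * (n / q)) else 0) +
        χ (p : ZMod L) * (if p ∣ n then b (q * (n / p)) else 0) +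
        χ (p : ZMod L) * χ (q : ZMod L) * (if p * q ∣ n then b (n / (p * q)) else 0) := by
    intro p q hp hq hne
    have hcop : q.Coprime p := (Nat.coprime_primes hq hp).mpr hne.symm
    have h1 : q ∣ p * n ↔ q ∣ n := ⟨hcop.dvd_of_dvd_mul_left, fun h ↦ h.mul_left p⟩
    simp only [seqT_apply]
    by_cases hpn : p ∣ n <;> by_cases hqn : q ∣ n
    · have h2 : q ∣ n / p := hcop.dvd_of_dvd_mul_left (by rwa [Nat.mul_div_cancel' hpn])
      have h3 : p * q ∣ n := hcop.symm.mul_dvd_of_dvd_of_dvd hpn hqn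
      rw [if_pos hpn, if_pos hqn, if_pos (h1.mpr hqn), if_pos hpn, if_pos h2, if_pos h3,
        Nat.mul_div_assoc _ hqn, Nat.div_div_eq_div_mul]
      ring
    · have h2 : ¬ q ∣ n / p := fun h ↦ hqn (h.trans (Nat.div_dvd_of_dvd hpn))
      have h3 : ¬ p * q ∣ n := fun h ↦ hqn ((dvd_mul_left q p).trans h)
      rw [if_pos hpn, if_neg hqn, if_neg (fun h ↦ hqn (h1.mp h)), if_pos hpn, if_neg h2, if_neg h3]
      ring
    · have h3 : ¬ p * q ∣ n := fun h ↦ hpn ((dvd_mul_right p q).trans h)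
      rw [if_neg hpn, if_pos hqn, if_pos (h1.mpr hqn), if_neg hpn, if_neg h3,
        Nat.mul_div_assoc _ hqn]
      ring
    · have h3 : ¬ p * q ∣ n := fun h ↦ hpn ((dvd_mul_right p q).trans h)
      rw [if_neg hpn, if_neg hqn, if_neg (fun h ↦ hqn (h1.mp h)), if_neg hpn, if_neg h3]
      ring
  rw [key hp hq hne, key hq hp hne.symm, mul_left_comm q p n, mul_comm q p]
  ring

/-- `T_p` preserves the coefficient space. -/
theorem seqT_mem [NeZero L] (hp : p.Prime) (hpL : ¬ p ∣ L) {a : ℕ → ℂ} (ha : a ∈ charSpace χ) :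
    seqT χ p a ∈ charSpace χ := by
  obtain ⟨g, hg, hgc, hga⟩ := ha
  have hinv : ∀ γ ∈ Gamma0 L, chiT χ p g ∣[(1 : ℤ)] γ = χ ((γ 1 1 : ℤ) : ZMod L) • chiT χ p g :=
    fun γ hγ ↦ chiT_slash χ hp hpL hgc hγ
  have hdecomp : chiT χ p g = ModularForm.heckeU 1 p g +
      χ (p : ZMod L) • (ModularForm.heckeT 1 p g - ModularForm.heckeU 1 p g) := by
    rw [chiT, ModularForm.heckeT_eq_heckeU_add, add_sub_cancel_left]
  have hzero : ∀ γ : SL(2, ℤ), IsZeroAtImInfty (chiT χ p g ∣[(1 : ℤ)] γ) := by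
    intro γ
    have hc : IsCusp (mapGL ℝ γ • OnePoint.infty) (Gamma1 L : Subgroup (GL (Fin 2) ℝ)) := by
      rw [Subgroup.IsArithmetic.isCusp_iff_isCusp_SL2Z]
      exact isCusp_SL2Z_iff'.2 ⟨γ, rfl⟩
    have hU := CuspFormClass.isZeroAt_heckeU hg.toCF p hc (mapGL ℝ γ) rfl
    have hT := CuspFormClass.isZeroAt_heckeT hg.toCF p hc (mapGL ℝ γ) rfl
    rw [IsCF.coe_toCF] at hU hT
    rw [hdecomp, SlashAction.add_slash, ModularForm.SL_smul_slash, sub_eq_add_neg,
      SlashAction.add_slash, neg_slash_SL]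
    exact hU.add ((hT.add hU.neg).smul _)
  have hCF : IsCF 1 (Gamma1 L) (chiT χ p g) := by
    refine ⟨⟨fun γ hγ ↦ ?_, ?_, fun γ ↦ (hzero γ).boundedAtFilter⟩, hzero⟩
    · rw [hinv γ (Gamma1_in_Gamma0 L hγ), ((Gamma1_mem L γ).mp hγ).2.1, map_one, one_smul]
    · rw [hdecomp]
      exact (ModularForm.mdifferentiable_heckeU hg.1.holo 1 p).add
        (((ModularForm.mdifferentiable_heckeT hg.1.holo 1 p).sub
          (ModularForm.mdifferentiable_heckeU hg.1.holo 1 p)).const_smul _)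
  refine ⟨_, hCF, hinv, fun n ↦ ?_⟩
  have hgPB := hg.1.mem_PB T_mem_Gamma1
  obtain ⟨hper, hhol, hbdd⟩ := mem_PB.mp hgPB
  have hUPB : ModularForm.heckeU 1 p g ∈ PB := mem_PB.mpr
    ⟨ModularForm.periodic_heckeU_comp_ofComplex hper 1 p,
      ModularForm.mdifferentiable_heckeU hhol 1 p, ModularForm.isBoundedAtImInfty_heckeU hbdd 1 p⟩
  have hTPB : ModularForm.heckeT 1 p g ∈ PB := mem_PB.mpr
    ⟨ModularForm.periodic_heckeT_comp_ofComplex hper 1 p,
      ModularForm.mdifferentiable_heckeT hhol 1 p, ModularForm.isBoundedAtImInfty_heckeT hbdd 1 p⟩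
  rw [hdecomp, qE_add hUPB (PB.smul_mem (sub_mem hTPB hUPB) _), qE_smul (sub_mem hTPB hUPB),
    qE_sub hTPB hUPB]
  have hu : PowerSeries.coeff n (qE (ModularForm.heckeU 1 p g))
      = ModularForm.coeffHeckeU p (ModularFormClass.qCoeff g) n :=
    UpperHalfPlane.qCoeff_heckeU hper hhol hbdd 1 hp.ne_zero n
  have ht : PowerSeries.coeff n (qE (ModularForm.heckeT 1 p g))
      = ModularForm.coeffHeckeT 1 p (ModularFormClass.qCoeff g) n :=
    UpperHalfPlane.qCoeff_heckeT hper hhol hbdd 1 hp.ne_zero n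
  have hq : ∀ m, ModularFormClass.qCoeff g m = a m := hga
  simp only [map_add, map_smul, map_sub, hu, ht, smul_eq_mul, seqT_apply]
  simp [ModularForm.coeffHeckeT, ModularForm.coeffHeckeU, hq, mul_comm p n]

end FLTAgent.LanglandsTunnell.Lift
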